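/-
S27lib / D4 / K2 / ParTor  (helper5; port of S29lib/K2/ParTor (helper7) to a general `Γ`)

Adapter: a character of `Γ ≤ SL(2,ℤ)` killing the parabolic-or-torsion elements (`IsParTor`,
S16lib/LG) is trivial on the upper triangular elements, which is the hypothesis `hχ` of
`K2/EisChi`, `K2/WH0`, `K2/YChi`; and the packaged output of K2 for the members of
`charSubG`-type characters (exponent `n`, killing `IsParTor`).
-/
import Fermat.Agent.S27lib.D4.K2.YChi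
import Fermat.Agent.S29lib.K2.ParTor
import Fermat.Agent.S16lib.LG.Shimura

set_option autoImplicit false

noncomputable section

namespace Fermat.Agent.S27lib.D4.K2

open UpperHalfPlane Matrix MatrixGroups Fermat.Agent.ProgramR Fermat.Agent.S29lib.K2

variable {Γ : Subgroup SL(2, ℤ)} {χ : ↥Γ →* ℂˣ}

/-- a character killing `IsParTor` is trivial on the upper triangular elements -/
theorem eq_one_of_apply_one_zero_of_killsG
    (hk : ∀ γ : ↥Γ, Fermat.Agent.S16lib.LG.IsParTor (γ : SL(2, ℤ)) → χ γ = 1)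
    (γ : ↥Γ) (h0 : (γ : SL(2, ℤ)) 1 0 = 0) : χ γ = 1 :=
  hk γ (Or.inl (isPar_of_apply_one_zero _ h0))

/-- **K2 for a general `Γ`, packaged**: for a character `χ` of exponent `n ≠ 0` killing the
parabolic and torsion elements of `Γ ∋ -1` there are `y : Hol`, `y ≠ 0`, with
`y(γ z) = χ(γ) y(z)` for `γ ∈ Γ`, and `G : WH0 Γ`, `G ≠ 0`, with `toHol G = y ^ n`. -/
theorem exists_yChiG (hneg : (-1 : SL(2, ℤ)) ∈ Γ) {n : ℕ} (hn : n ≠ 0)
    (hχn : ∀ γ : ↥Γ, χ γ ^ n = 1)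
    (hk : ∀ γ : ↥Γ, Fermat.Agent.S16lib.LG.IsParTor (γ : SL(2, ℤ)) → χ γ = 1) :
    ∃ (y : Hol) (G : ↥(WH0 Γ)), y ≠ 0 ∧ G ≠ 0 ∧ WH0.toHol Γ G = y ^ n ∧
      ∀ (γ : ↥Γ) (z : ℍ), (y : ℍ → ℂ) ((γ : SL(2, ℤ)) • z) = ((χ γ : ℂˣ) : ℂ) * (y : ℍ → ℂ) z := by
  have hχ : ∀ γ : ↥Γ, (γ : SL(2, ℤ)) 1 0 = 0 → χ γ = 1 :=
    fun γ h0 => eq_one_of_apply_one_zero_of_killsG hk γ h0
  have hnorm := norm_eq_one_of_pow_eq_oneG hn hχn
  exact ⟨yChiG χ hnorm, gChiG χ hn hχn hχ, yChiG_ne_zero hneg hnorm hχ,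
    gChiG_ne_zero hneg hn hχn hχ, toHol_gChiG hn hχn hχ, fun γ z => yChiG_smul hnorm hχ γ z⟩

end Fermat.Agent.S27lib.D4.K2
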