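/-
S27lib / D4 / K2 / EisChi  (helper5; port of S29lib/K2/EisChi (helper7) from `Γ₀(N)` to a general `Γ`)

The twisted Eisenstein series of weight 4 attached to a character `χ : Γ →* ℂˣ` with `|χ| = 1`
which is trivial on the upper triangular elements of `Γ`, for an arbitrary subgroup
`Γ ≤ SL(2,ℤ)` (for the value at `i∞` we need `-1 ∈ Γ`):
`E_χ(z) = ½ ∑_{(c,d)} χ(γ_{c,d})⁻¹ (c z + d)⁻⁴`, the sum over the bottom rows of `Γ`.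
* `eisChiG_smul` : `E_χ(γ z) = χ(γ) (c z + d)^4 E_χ(z)` for `γ ∈ Γ`;
* `mdifferentiable_eisChiG` : holomorphic on `ℍ`;
* `eisChiG_smul_SL` / `isBoundedAtImInfty_eisChiAtG` : `E_χ(g z) = (c z + d)^4 · (bounded at i∞)` for
  every `g ∈ SL(2,ℤ)` (all cusps);
* `tendsto_eisChiG` : `E_χ → 1` at `i∞`, hence `E_χ ≠ 0`.
-/
import Fermat.Agent.S29lib.K2.EisChi

set_option autoImplicit false

noncomputable section

namespace Fermat.Agent.S27lib.D4.K2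

open UpperHalfPlane EisensteinSeries Matrix MatrixGroups ModularForm Filter Topology Complex Set
  Manifold Fermat.Agent.S29lib.K2

variable {Γ : Subgroup SL(2, ℤ)}

section Coeff

variable (χ : ↥Γ →* ℂˣ)

open Classical in
/-- the coefficient function on row vectors: `χ(γ)⁻¹` on the bottom row of `γ ∈ Γ`, zero on the
vectors which are not bottom rows of elements of `Γ` -/
def chiCoeffG (v : Fin 2 → ℤ) : ℂ :=
  if h : ∃ γ : ↥Γ, bottomRow (γ : SL(2, ℤ)) = v then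
    (((χ (Classical.choose h))⁻¹ : ℂˣ) : ℂ) else 0

variable {χ}

theorem chiCoeffG_bottomRow
    (hχ : ∀ γ : ↥Γ, (γ : SL(2, ℤ)) 1 0 = 0 → χ γ = 1) (γ : ↥Γ) :
    chiCoeffG χ (bottomRow (γ : SL(2, ℤ))) = (((χ γ)⁻¹ : ℂˣ) : ℂ) := by
  have h : ∃ γ' : ↥Γ, bottomRow (γ' : SL(2, ℤ)) = bottomRow (γ : SL(2, ℤ)) := ⟨γ, rfl⟩
  unfold chiCoeffG
  rw [dif_pos h]
  set γ' := Classical.choose h with hγ'
  have hrow : bottomRow (γ' : SL(2, ℤ)) = bottomRow (γ : SL(2, ℤ)) := Classical.choose_spec h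
  have h0 : ((γ' * γ⁻¹ : ↥Γ) : SL(2, ℤ)) 1 0 = 0 :=
    mul_inv_apply_one_zero_of_bottomRow_eq hrow
  have h1 : χ (γ' * γ⁻¹) = 1 := hχ _ h0
  rw [map_mul, map_inv, mul_inv_eq_one] at h1
  rw [h1]

theorem chiCoeffG_of_not_exists {v : Fin 2 → ℤ}
    (h : ¬ ∃ γ : ↥Γ, bottomRow (γ : SL(2, ℤ)) = v) : chiCoeffG χ v = 0 := by
  unfold chiCoeffG
  rw [dif_neg h]

theorem chiCoeffG_vecMul
    (hχ : ∀ γ : ↥Γ, (γ : SL(2, ℤ)) 1 0 = 0 → χ γ = 1) (v : Fin 2 → ℤ) (γ : ↥Γ) :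
    chiCoeffG χ (v ᵥ* ((γ : SL(2, ℤ)) : Matrix (Fin 2) (Fin 2) ℤ)) =
      chiCoeffG χ v * (((χ γ)⁻¹ : ℂˣ) : ℂ) := by
  by_cases h : ∃ γ₀ : ↥Γ, bottomRow (γ₀ : SL(2, ℤ)) = v
  · obtain ⟨γ₀, rfl⟩ := h
    have h1 : bottomRow (γ₀ : SL(2, ℤ)) ᵥ* ((γ : SL(2, ℤ)) : Matrix (Fin 2) (Fin 2) ℤ) =
        bottomRow (((γ₀ * γ : ↥Γ) : SL(2, ℤ))) := by
      rw [Subgroup.coe_mul, bottomRow_mul]
    rw [h1, chiCoeffG_bottomRow hχ, chiCoeffG_bottomRow hχ, map_mul, mul_inv, Units.val_mul,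
      mul_comm]
  · have h' : ¬ ∃ γ₀ : ↥Γ, bottomRow (γ₀ : SL(2, ℤ)) =
        v ᵥ* ((γ : SL(2, ℤ)) : Matrix (Fin 2) (Fin 2) ℤ) := by
      rintro ⟨γ₀, hγ₀⟩
      apply h
      refine ⟨γ₀ * γ⁻¹, ?_⟩
      rw [Subgroup.coe_mul, bottomRow_mul, hγ₀, Subgroup.coe_inv, vecMul_vecMul, coe_mul_coe_inv,
        vecMul_one]
    rw [chiCoeffG_of_not_exists h, chiCoeffG_of_not_exists h', zero_mul]

theorem norm_chiCoeffG_le (hnorm : ∀ γ : ↥Γ, ‖((χ γ : ℂˣ) : ℂ)‖ = 1) (v : Fin 2 → ℤ) :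
    ‖chiCoeffG χ v‖ ≤ 1 := by
  unfold chiCoeffG
  split_ifs with h
  · rw [Units.val_inv_eq_inv_val, norm_inv, hnorm, inv_one]
  · rw [norm_zero]
    exact zero_le_one

end Coeff

section Values

variable {χ : ↥Γ →* ℂˣ}

theorem chiCoeffG_zero_one (hχ : ∀ γ : ↥Γ, (γ : SL(2, ℤ)) 1 0 = 0 → χ γ = 1) :
    chiCoeffG χ ![0, 1] = 1 := by
  have h := chiCoeffG_bottomRow hχ (1 : ↥Γ)
  rw [Subgroup.coe_one, bottomRow_one, map_one, inv_one, Units.val_one] at h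
  exact h

theorem chiCoeffG_zero_neg_one (hneg : (-1 : SL(2, ℤ)) ∈ Γ)
    (hχ : ∀ γ : ↥Γ, (γ : SL(2, ℤ)) 1 0 = 0 → χ γ = 1) :
    chiCoeffG χ ![0, -1] = 1 := by
  have h := chiCoeffG_bottomRow hχ (⟨-1, hneg⟩ : ↥Γ)
  have h1 : χ (⟨-1, hneg⟩ : ↥Γ) = 1 := hχ _ (by simp)
  rw [h1, inv_one, Units.val_one] at h
  rw [← bottomRow_neg_one]
  exact h

theorem chiCoeffG_eq_zero_of_zero {v : Fin 2 → ℤ} (hv0 : v 0 = 0) (h1 : v ≠ ![0, 1])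
    (h2 : v ≠ ![0, -1]) : chiCoeffG χ v = 0 := by
  refine chiCoeffG_of_not_exists ?_
  rintro ⟨γ, rfl⟩
  rcases eq_of_bottomRow_zero (γ : SL(2, ℤ)) hv0 with h | h
  · exact h1 h
  · exact h2 h

end Values

/-! ### the series -/

section Series

variable (χ : ↥Γ →* ℂˣ)

/-- **the twisted Eisenstein series of weight 4** -/
def eisChiG (z : ℍ) : ℂ := (1 / 2 : ℂ) * twEis (chiCoeffG χ) 4 z

/-- its translate at the cusp `g • i∞`: `E_χ(g z) = (c z + d)^4 · eisChiAtG χ g z` -/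
def eisChiAtG (g : SL(2, ℤ)) (z : ℍ) : ℂ :=
  (1 / 2 : ℂ) *
    twEis (fun w => chiCoeffG χ (w ᵥ* ((g⁻¹ : SL(2, ℤ)) : Matrix (Fin 2) (Fin 2) ℤ))) 4 z

variable {χ}

/-- holomorphy -/
theorem mdifferentiable_eisChiG (hnorm : ∀ γ : ↥Γ, ‖((χ γ : ℂˣ) : ℂ)‖ = 1) :
    MDiff (eisChiG χ) :=
  (mdifferentiable_const (c := (1 / 2 : ℂ))).mul
    (mdifferentiable_twEis (norm_chiCoeffG_le hnorm) (by norm_num))

/-- behaviour under all of `SL(2,ℤ)` -/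
theorem eisChiG_smul_SL (g : SL(2, ℤ)) (z : ℍ) :
    eisChiG χ (g • z) = denom g z ^ (4 : ℤ) * eisChiAtG χ g z := by
  unfold eisChiG eisChiAtG
  rw [twEis_smul]
  ring

theorem isBoundedAtImInfty_eisChiAtG (hnorm : ∀ γ : ↥Γ, ‖((χ γ : ℂˣ) : ℂ)‖ = 1)
    (g : SL(2, ℤ)) : IsBoundedAtImInfty (eisChiAtG χ g) := by
  have h1 : IsBoundedAtImInfty
      (twEis (fun w => chiCoeffG χ (w ᵥ* ((g⁻¹ : SL(2, ℤ)) : Matrix (Fin 2) (Fin 2) ℤ))) 4) :=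
    isBoundedAtImInfty_twEis (fun v => norm_chiCoeffG_le hnorm _) (by norm_num)
  exact (Filter.const_boundedAtFilter atImInfty (1 / 2 : ℂ)).mul h1

/-- **the transformation law under `Γ`** -/
theorem eisChiG_smul (hχ : ∀ γ : ↥Γ, (γ : SL(2, ℤ)) 1 0 = 0 → χ γ = 1)
    (γ : ↥Γ) (z : ℍ) :
    eisChiG χ ((γ : SL(2, ℤ)) • z) =
      ((χ γ : ℂˣ) : ℂ) * denom (γ : SL(2, ℤ)) z ^ (4 : ℤ) * eisChiG χ z := by
  rw [eisChiG_smul_SL]
  unfold eisChiAtG eisChiG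
  have h1 : ∀ w : Fin 2 → ℤ,
      chiCoeffG χ (w ᵥ* (((γ : SL(2, ℤ))⁻¹ : SL(2, ℤ)) : Matrix (Fin 2) (Fin 2) ℤ)) =
        chiCoeffG χ w * ((χ γ : ℂˣ) : ℂ) := by
    intro w
    have h2 := chiCoeffG_vecMul hχ w γ⁻¹
    rw [Subgroup.coe_inv, map_inv, inv_inv] at h2
    exact h2
  rw [twEis_congr h1]
  unfold twEis
  simp_rw [mul_right_comm _ ((χ γ : ℂˣ) : ℂ) _]
  rw [tsum_mul_right]
  ring

end Series

/-! ### the value at `i∞` -/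

section Limit

variable {χ : ↥Γ →* ℂˣ}

/-- **`E_χ → 1` at `i∞`** -/
theorem tendsto_eisChiG (hneg : (-1 : SL(2, ℤ)) ∈ Γ)
    (hnorm : ∀ γ : ↥Γ, ‖((χ γ : ℂˣ) : ℂ)‖ = 1)
    (hχ : ∀ γ : ↥Γ, (γ : SL(2, ℤ)) 1 0 = 0 → χ γ = 1) :
    Tendsto (eisChiG χ) atImInfty (𝓝 1) := by
  set a := chiCoeffG χ with ha_def
  set a₀ : (Fin 2 → ℤ) → ℂ := fun v => if v 0 = 0 then a v else 0 with ha₀_def
  set a₁ : (Fin 2 → ℤ) → ℂ := fun v => if v 0 = 0 then 0 else a v with ha₁_def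
  have ha : ∀ v, ‖a v‖ ≤ 1 := norm_chiCoeffG_le hnorm
  have ha₀ : ∀ v, ‖a₀ v‖ ≤ 1 := fun v => by
    simp only [ha₀_def]
    split_ifs
    · exact ha v
    · rw [norm_zero]; exact zero_le_one
  have ha₁ : ∀ v, ‖a₁ v‖ ≤ 1 := fun v => by
    simp only [ha₁_def]
    split_ifs
    · rw [norm_zero]; exact zero_le_one
    · exact ha v
  have hsplit : ∀ z, twEis a 4 z = twEis a₀ 4 z + twEis a₁ 4 z := fun z => by
    rw [← twEis_add ha₀ ha₁ (by norm_num)]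
    refine twEis_congr (fun v => ?_) 4 z
    simp only [ha₀_def, ha₁_def]
    split_ifs
    · rw [add_zero]
    · rw [zero_add]
  have hne : (![0, 1] : Fin 2 → ℤ) ≠ ![0, -1] := by
    intro h
    have := congrFun h 1
    simp at this
  have h0 : ∀ z, twEis a₀ 4 z = 2 := by
    intro z
    have hsupp : ∀ v : Fin 2 → ℤ, v ∉ ({![0, 1], ![0, -1]} : Finset (Fin 2 → ℤ)) → a₀ v = 0 := by
      intro v hv
      simp only [Finset.mem_insert, Finset.mem_singleton, not_or] at hv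
      simp only [ha₀_def]
      split_ifs with hv0
      · exact chiCoeffG_eq_zero_of_zero hv0 hv.1 hv.2
      · rfl
    rw [twEis_eq_sum _ hsupp 4 z, Finset.sum_pair hne]
    have e1 : a₀ ![0, 1] = 1 := by
      simp only [ha₀_def, Matrix.cons_val_zero, if_true]
      exact chiCoeffG_zero_one hχ
    have e2 : a₀ ![0, -1] = 1 := by
      simp only [ha₀_def, Matrix.cons_val_zero, if_true]
      exact chiCoeffG_zero_neg_one hneg hχ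
    rw [e1, e2, eisSummand_zero_one, eisSummand_zero_neg_one]
    norm_num
  have h1 : Tendsto (twEis a₁ 4) atImInfty (𝓝 0) :=
    isZeroAtImInfty_twEis_of_vanish ha₁ (by norm_num) (fun v hv => by simp [ha₁_def, hv])
  have heq : eisChiG χ = fun z => (1 / 2 : ℂ) * (2 + twEis a₁ 4 z) := by
    funext z
    unfold eisChiG
    rw [← ha_def, hsplit, h0]
  rw [heq]
  have h2 := ((tendsto_const_nhds (x := (2 : ℂ)) (f := atImInfty)).add h1).const_mul (1 / 2 : ℂ)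
  simpa using h2

/-- `E_χ` is nonzero for `Im z` large -/
theorem eventually_eisChiG_ne_zero (hneg : (-1 : SL(2, ℤ)) ∈ Γ)
    (hnorm : ∀ γ : ↥Γ, ‖((χ γ : ℂˣ) : ℂ)‖ = 1)
    (hχ : ∀ γ : ↥Γ, (γ : SL(2, ℤ)) 1 0 = 0 → χ γ = 1) :
    ∀ᶠ z in atImInfty, eisChiG χ z ≠ 0 :=
  (tendsto_eisChiG hneg hnorm hχ).eventually_ne one_ne_zero

theorem exists_eisChiG_ne_zero (hneg : (-1 : SL(2, ℤ)) ∈ Γ)
    (hnorm : ∀ γ : ↥Γ, ‖((χ γ : ℂˣ) : ℂ)‖ = 1)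
    (hχ : ∀ γ : ↥Γ, (γ : SL(2, ℤ)) 1 0 = 0 → χ γ = 1) :
    ∃ z : ℍ, eisChiG χ z ≠ 0 :=
  (eventually_eisChiG_ne_zero hneg hnorm hχ).exists

end Limit

end Fermat.Agent.S27lib.D4.K2
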