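/-
S27lib / D4 / K2 / WH0  (helper5; port of S29lib/K2/WH0 (helper7) from `Γ₀(N)` to a general `Γ`)

For a character `χ : Γ →* ℂˣ` with `χ ^ n = 1` (so `|χ| = 1`), trivial on the upper triangular
elements, `Γ ≤ SL(2,ℤ)` arbitrary: the function `E_χ^n E₄^{2n} / Δ^n` is a weakly holomorphic modular
function of weight 0 for `Γ` (`IsWH0`), and `h_χ := E_χ / E₄` satisfies `h_χ(γ z) = χ(γ) h_χ(z)`,
`h_χ ^ n = (E_χ^n E₄^{2n} / Δ^n) / j^n`.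
-/
import Fermat.Agent.S27lib.D4.K2.EisChi
import Fermat.Agent.S29lib.K2.WH0
import Fermat.Agent.ProgramR.LevelOne.WH0

set_option autoImplicit false

noncomputable section

namespace Fermat.Agent.S27lib.D4.K2

open UpperHalfPlane EisensteinSeries Matrix MatrixGroups ModularForm Filter Topology Complex Set
  Manifold Fermat.Agent.ProgramR Fermat.Agent.ProgramR.LevelOne Fermat.Agent.S29lib.K2

local notation "Δ" => ModularForm.discriminant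

variable {Γ : Subgroup SL(2, ℤ)} {χ : ↥Γ →* ℂˣ}

theorem norm_eq_one_of_pow_eq_oneG {n : ℕ} (hn : n ≠ 0) (hχn : ∀ γ : ↥Γ, χ γ ^ n = 1)
    (γ : ↥Γ) : ‖((χ γ : ℂˣ) : ℂ)‖ = 1 := by
  have h1 : ((χ γ : ℂˣ) : ℂ) ^ n = 1 := by
    rw [← Units.val_pow_eq_pow_val, hχn γ, Units.val_one]
  exact Complex.norm_eq_one_of_pow_eq_one h1 hn

/-- the weight-0 function attached to `χ` -/
def wh0ChiG (χ : ↥Γ →* ℂˣ) (n : ℕ) (z : ℍ) : ℂ :=
  eisChiG χ z ^ n * E₄ z ^ (2 * n) / Δ z ^ n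

theorem mdifferentiable_wh0ChiG (hnorm : ∀ γ : ↥Γ, ‖((χ γ : ℂˣ) : ℂ)‖ = 1) (n : ℕ) :
    MDiff (wh0ChiG χ n) := by
  have h1 : MDiff (fun z => eisChiG χ z ^ n * E₄ z ^ (2 * n)) :=
    (mdifferentiable_pow (mdifferentiable_eisChiG hnorm) n).mul
      (mdifferentiable_pow S29lib.K2.mdifferentiable_E₄ (2 * n))
  exact h1.div (mdifferentiable_pow S29lib.K2.mdifferentiable_discriminant n)
    (fun z => pow_ne_zero n (discriminant_ne_zero z))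

/-- translate of `wh0ChiG` under `g ∈ SL(2,ℤ)` -/
theorem wh0ChiG_smul_SL (n : ℕ) (g : SL(2, ℤ)) (z : ℍ) :
    wh0ChiG χ n (g • z) * Δ z ^ n = eisChiAtG χ g z ^ n * E₄ z ^ (2 * n) := by
  have hd : denom g z ≠ 0 := denom_ne_zero _ _
  have hΔ : Δ z ≠ 0 := discriminant_ne_zero z
  unfold wh0ChiG
  rw [eisChiG_smul_SL, E₄_smul, discriminant_smul]
  have e4 : (denom g z ^ (4 : ℤ)) = denom g z ^ 4 := by norm_cast
  have e12 : (denom g z ^ (12 : ℤ)) = denom g z ^ 12 := by norm_cast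
  rw [e4, e12]
  field_simp
  ring

/-- **`E_χ^n E₄^{2n} / Δ^n` is a weakly holomorphic modular function for `Γ`** -/
theorem isWH0_wh0ChiG {n : ℕ} (hn : n ≠ 0) (hχn : ∀ γ : ↥Γ, χ γ ^ n = 1)
    (hχ : ∀ γ : ↥Γ, (γ : SL(2, ℤ)) 1 0 = 0 → χ γ = 1) :
    IsWH0 Γ (wh0ChiG χ n) where
  mdiff := mdifferentiable_wh0ChiG (norm_eq_one_of_pow_eq_oneG hn hχn) n
  smul_eq := by
    intro γ hγ z
    have hd : denom γ z ≠ 0 := denom_ne_zero _ _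
    have hΔ : Δ z ≠ 0 := discriminant_ne_zero z
    have h1 := eisChiG_smul hχ ⟨γ, hγ⟩ z
    have h2 : ((χ ⟨γ, hγ⟩ : ℂˣ) : ℂ) ^ n = 1 := by
      rw [← Units.val_pow_eq_pow_val, hχn, Units.val_one]
    simp only at h1
    unfold wh0ChiG
    rw [h1, E₄_smul, discriminant_smul]
    have e4 : (denom γ z ^ (4 : ℤ)) = denom γ z ^ 4 := by norm_cast
    have e12 : (denom γ z ^ (12 : ℤ)) = denom γ z ^ 12 := by norm_cast
    rw [e4, e12, mul_pow, mul_pow, h2]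
    field_simp
    ring
  exists_bdd := by
    refine ⟨n, fun g => ?_⟩
    have hb1 : IsBoundedAtImInfty (eisChiAtG χ g) :=
      isBoundedAtImInfty_eisChiAtG (norm_eq_one_of_pow_eq_oneG hn hχn) g
    have hb2 : IsBoundedAtImInfty (fun z : ℍ => E₄ z) :=
      tendsto_E₄_atImInfty.isBigO_one ℝ
    have hpow : ∀ {f : ℍ → ℂ}, IsBoundedAtImInfty f → ∀ m : ℕ,
        IsBoundedAtImInfty (fun z => f z ^ m) := by
      intro f hf m
      induction m with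
      | zero => simpa using isBoundedAtImInfty_const 1
      | succ m ih =>
        have h : IsBoundedAtImInfty ((fun z : ℍ => f z ^ m) * f) := ih.mul hf
        have e : ((fun z : ℍ => f z ^ m) * f) = fun z : ℍ => f z ^ (m + 1) := by
          funext z; simp [pow_succ]
        rwa [e] at h
    have h3 : IsBoundedAtImInfty
        ((fun z : ℍ => eisChiAtG χ g z ^ n) * (fun z : ℍ => E₄ z ^ (2 * n))) :=
      (hpow hb1 n).mul (hpow hb2 (2 * n))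
    refine Asymptotics.IsBigO.congr_left h3 fun z => ?_
    rw [wh0ChiG_smul_SL]
    rfl

theorem wh0ChiG_mem_WH0 {n : ℕ} (hn : n ≠ 0) (hχn : ∀ γ : ↥Γ, χ γ ^ n = 1)
    (hχ : ∀ γ : ↥Γ, (γ : SL(2, ℤ)) 1 0 = 0 → χ γ = 1) :
    wh0ChiG χ n ∈ WH0 Γ :=
  isWH0_wh0ChiG hn hχn hχ

/-- `wh0ChiG χ n` does not vanish for `Im z` large -/
theorem eventually_wh0ChiG_ne_zero (hneg : (-1 : SL(2, ℤ)) ∈ Γ) {n : ℕ} (hn : n ≠ 0)
    (hχn : ∀ γ : ↥Γ, χ γ ^ n = 1)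
    (hχ : ∀ γ : ↥Γ, (γ : SL(2, ℤ)) 1 0 = 0 → χ γ = 1) :
    ∀ᶠ z in atImInfty, wh0ChiG χ n z ≠ 0 := by
  have h1 := eventually_eisChiG_ne_zero hneg (norm_eq_one_of_pow_eq_oneG hn hχn) hχ
  have h2 : ∀ᶠ z in atImInfty, E₄ z ≠ 0 := tendsto_E₄_atImInfty.eventually_ne one_ne_zero
  filter_upwards [h1, h2] with z hz1 hz2
  unfold wh0ChiG
  exact div_ne_zero (mul_ne_zero (pow_ne_zero n hz1) (pow_ne_zero _ hz2))
    (pow_ne_zero n (discriminant_ne_zero z))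

theorem wh0ChiG_ne_zero (hneg : (-1 : SL(2, ℤ)) ∈ Γ) {n : ℕ} (hn : n ≠ 0)
    (hχn : ∀ γ : ↥Γ, χ γ ^ n = 1)
    (hχ : ∀ γ : ↥Γ, (γ : SL(2, ℤ)) 1 0 = 0 → χ γ = 1) : wh0ChiG χ n ≠ 0 := by
  obtain ⟨z, hz⟩ := (eventually_wh0ChiG_ne_zero hneg hn hχn hχ).exists
  intro h
  exact hz (by rw [h]; rfl)

/-! ### the `χ`-automorphic function `h_χ = E_χ / E₄` -/

/-- `h_χ := E_χ / E₄` (meromorphic on `ℍ`, poles only at the zeros of `E₄`) -/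
def hChiG (χ : ↥Γ →* ℂˣ) (z : ℍ) : ℂ := eisChiG χ z / E₄ z

/-- **`h_χ(γ z) = χ(γ) h_χ(z)` for `γ ∈ Γ`** (also at the zeros of `E₄`, where both sides are `0`
by the convention `x / 0 = 0`) -/
theorem hChiG_smul (hχ : ∀ γ : ↥Γ, (γ : SL(2, ℤ)) 1 0 = 0 → χ γ = 1)
    (γ : ↥Γ) (z : ℍ) :
    hChiG χ ((γ : SL(2, ℤ)) • z) = ((χ γ : ℂˣ) : ℂ) * hChiG χ z := by
  have hd : denom (γ : SL(2, ℤ)) z ^ (4 : ℤ) ≠ 0 := zpow_ne_zero _ (denom_ne_zero _ _)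
  unfold hChiG
  rw [eisChiG_smul hχ, E₄_smul, mul_comm ((χ γ : ℂˣ) : ℂ), mul_assoc, mul_div_mul_left _ _ hd,
    mul_div_assoc]

/-- `h_χ ^ n = (E_χ^n E₄^{2n} / Δ^n) / j^n` -/
theorem hChiG_pow {n : ℕ} (hn : n ≠ 0) (z : ℍ) :
    hChiG χ z ^ n = wh0ChiG χ n z / jInv z ^ n := by
  have hΔ : Δ z ≠ 0 := discriminant_ne_zero z
  unfold hChiG wh0ChiG
  rw [jInv_def]
  by_cases hE : E₄ z = 0
  · rw [hE, div_zero, zero_pow hn, zero_pow (by omega : 2 * n ≠ 0), mul_zero, zero_div, zero_div]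
  · have hE' : E₄ z ^ (2 * n) ≠ 0 := pow_ne_zero _ hE
    rw [div_pow, div_pow, ← pow_mul, div_div_div_cancel_right₀ (pow_ne_zero n hΔ),
      show 3 * n = n + 2 * n by ring, pow_add, mul_div_mul_right _ _ hE']

end Fermat.Agent.S27lib.D4.K2
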