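/-
S27lib / D4 / K2 / YChi  (helper5; port of S29lib/K2/YChi (helper7) from `Γ₀(N)` to a general `Γ`)

The weight-0 holomorphic `χ`-automorphic function `y_χ := E_χ E₄² / Δ : Hol`
(`y_χ(γ z) = χ(γ) y_χ(z)` for `γ ∈ Γ`, `y_χ ≠ 0` if `-1 ∈ Γ`) and the element
`G_χ : WH0 Γ` with `toHol G_χ = y_χ ^ n` (for `χ ^ n = 1`): the input "RootData n G_χ with
character χ" of block K3 (surjectivity of the Kummer map), for an arbitrary `Γ ≤ SL(2,ℤ)`.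
-/
import Fermat.Agent.S27lib.D4.K2.WH0
import Fermat.Agent.ProgramR.Analytic.WH0Ring

set_option autoImplicit false

noncomputable section

namespace Fermat.Agent.S27lib.D4.K2

open UpperHalfPlane EisensteinSeries Matrix MatrixGroups ModularForm Filter Topology Complex Set
  Manifold Fermat.Agent.ProgramR Fermat.Agent.ProgramR.LevelOne Fermat.Agent.S29lib.K2

local notation "Δ" => ModularForm.discriminant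

variable {Γ : Subgroup SL(2, ℤ)} {χ : ↥Γ →* ℂˣ}

/-- `y_χ = E_χ E₄² / Δ` as a function -/
def yChiFunG (χ : ↥Γ →* ℂˣ) (z : ℍ) : ℂ := eisChiG χ z * E₄ z ^ 2 / Δ z

theorem mdifferentiable_yChiFunG (hnorm : ∀ γ : ↥Γ, ‖((χ γ : ℂˣ) : ℂ)‖ = 1) :
    MDiff (yChiFunG χ) := by
  have h1 : MDiff (fun z => eisChiG χ z * E₄ z ^ 2) :=
    (mdifferentiable_eisChiG hnorm).mul (mdifferentiable_pow S29lib.K2.mdifferentiable_E₄ 2)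
  exact h1.div S29lib.K2.mdifferentiable_discriminant (fun z => discriminant_ne_zero z)

/-- **`y_χ(γ z) = χ(γ) y_χ(z)`** -/
theorem yChiFunG_smul (hχ : ∀ γ : ↥Γ, (γ : SL(2, ℤ)) 1 0 = 0 → χ γ = 1)
    (γ : ↥Γ) (z : ℍ) :
    yChiFunG χ ((γ : SL(2, ℤ)) • z) = ((χ γ : ℂˣ) : ℂ) * yChiFunG χ z := by
  have hd : denom (γ : SL(2, ℤ)) z ≠ 0 := denom_ne_zero _ _
  have hΔ : Δ z ≠ 0 := discriminant_ne_zero z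
  unfold yChiFunG
  rw [eisChiG_smul hχ, E₄_smul, discriminant_smul]
  have e4 : (denom (γ : SL(2, ℤ)) z ^ (4 : ℤ)) = denom (γ : SL(2, ℤ)) z ^ 4 := by norm_cast
  have e12 : (denom (γ : SL(2, ℤ)) z ^ (12 : ℤ)) = denom (γ : SL(2, ℤ)) z ^ 12 := by norm_cast
  rw [e4, e12]
  field_simp

theorem yChiFunG_pow (n : ℕ) (z : ℍ) : yChiFunG χ z ^ n = wh0ChiG χ n z := by
  unfold yChiFunG wh0ChiG
  rw [div_pow, mul_pow, ← pow_mul]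

theorem eventually_yChiFunG_ne_zero (hneg : (-1 : SL(2, ℤ)) ∈ Γ)
    (hnorm : ∀ γ : ↥Γ, ‖((χ γ : ℂˣ) : ℂ)‖ = 1)
    (hχ : ∀ γ : ↥Γ, (γ : SL(2, ℤ)) 1 0 = 0 → χ γ = 1) :
    ∀ᶠ z in atImInfty, yChiFunG χ z ≠ 0 := by
  have h1 := eventually_eisChiG_ne_zero hneg hnorm hχ
  have h2 : ∀ᶠ z in atImInfty, E₄ z ≠ 0 := tendsto_E₄_atImInfty.eventually_ne one_ne_zero
  filter_upwards [h1, h2] with z hz1 hz2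
  unfold yChiFunG
  exact div_ne_zero (mul_ne_zero hz1 (pow_ne_zero _ hz2)) (discriminant_ne_zero z)

/-- `y_χ` as an element of `Hol` -/
def yChiG (χ : ↥Γ →* ℂˣ) (hnorm : ∀ γ : ↥Γ, ‖((χ γ : ℂˣ) : ℂ)‖ = 1) : Hol :=
  ⟨yChiFunG χ, mdifferentiable_yChiFunG hnorm⟩

@[simp] theorem yChiG_apply (hnorm : ∀ γ : ↥Γ, ‖((χ γ : ℂˣ) : ℂ)‖ = 1) (z : ℍ) :
    (yChiG χ hnorm : ℍ → ℂ) z = yChiFunG χ z := rfl

theorem yChiG_smul (hnorm : ∀ γ : ↥Γ, ‖((χ γ : ℂˣ) : ℂ)‖ = 1)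
    (hχ : ∀ γ : ↥Γ, (γ : SL(2, ℤ)) 1 0 = 0 → χ γ = 1) (γ : ↥Γ) (z : ℍ) :
    (yChiG χ hnorm : ℍ → ℂ) ((γ : SL(2, ℤ)) • z) =
      ((χ γ : ℂˣ) : ℂ) * (yChiG χ hnorm : ℍ → ℂ) z :=
  yChiFunG_smul hχ γ z

theorem yChiG_ne_zero (hneg : (-1 : SL(2, ℤ)) ∈ Γ)
    (hnorm : ∀ γ : ↥Γ, ‖((χ γ : ℂˣ) : ℂ)‖ = 1)
    (hχ : ∀ γ : ↥Γ, (γ : SL(2, ℤ)) 1 0 = 0 → χ γ = 1) : yChiG χ hnorm ≠ 0 := by
  obtain ⟨z, hz⟩ := (eventually_yChiFunG_ne_zero hneg hnorm hχ).exists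
  intro h
  apply hz
  have := congrArg (fun f : Hol => (f : ℍ → ℂ) z) h
  simpa using this

/-- `G_χ = E_χ^n E₄^{2n} / Δ^n` as an element of `WH0 Γ` -/
def gChiG (χ : ↥Γ →* ℂˣ) {n : ℕ} (hn : n ≠ 0) (hχn : ∀ γ : ↥Γ, χ γ ^ n = 1)
    (hχ : ∀ γ : ↥Γ, (γ : SL(2, ℤ)) 1 0 = 0 → χ γ = 1) : ↥(WH0 Γ) :=
  ⟨wh0ChiG χ n, wh0ChiG_mem_WH0 hn hχn hχ⟩

/-- **`toHol G_χ = y_χ ^ n`** -/
theorem toHol_gChiG {n : ℕ} (hn : n ≠ 0) (hχn : ∀ γ : ↥Γ, χ γ ^ n = 1)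
    (hχ : ∀ γ : ↥Γ, (γ : SL(2, ℤ)) 1 0 = 0 → χ γ = 1) :
    WH0.toHol Γ (gChiG χ hn hχn hχ) =
      yChiG χ (norm_eq_one_of_pow_eq_oneG hn hχn) ^ n := by
  refine Hol.ext fun z => ?_
  have h1 : ((yChiG χ (norm_eq_one_of_pow_eq_oneG hn hχn) ^ n : Hol) : ℍ → ℂ) z =
      yChiFunG χ z ^ n := rfl
  rw [h1, yChiFunG_pow]
  rfl

theorem gChiG_ne_zero (hneg : (-1 : SL(2, ℤ)) ∈ Γ) {n : ℕ} (hn : n ≠ 0)
    (hχn : ∀ γ : ↥Γ, χ γ ^ n = 1)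
    (hχ : ∀ γ : ↥Γ, (γ : SL(2, ℤ)) 1 0 = 0 → χ γ = 1) : gChiG χ hn hχn hχ ≠ 0 := by
  intro h
  have h1 := toHol_gChiG hn hχn hχ
  rw [h, map_zero] at h1
  exact yChiG_ne_zero hneg (norm_eq_one_of_pow_eq_oneG hn hχn) hχ
    (pow_eq_zero_iff hn |>.mp h1.symm)

end Fermat.Agent.S27lib.D4.K2
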